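import Mathlib
import Fermat.Agent.S20.LevelOne
import Fermat.Agent.S20.H78.SerreD

/-!
# The modular invariant `J = E₄³ / Δ` as a holomorphic function on the upper half-plane

Analytic core for S24: invariance, the derivative identity `D J · Δ = c · E₄² · E₆`,
surjectivity, and the exact local orders (`3` over `0`, `2` over `1728`, `1` elsewhere).
-/

open UpperHalfPlane hiding I
open Complex Filter Function
open scoped Real Topology Manifold MatrixGroups ModularForm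
open ModularForm EisensteinSeries Derivative Matrix.SpecialLinearGroup

set_option autoImplicit false

namespace Fermat.Agent.S24.H35

/-- Klein's modular invariant `J = E₄³ / Δ` (`= j`, with `q`-expansion `q⁻¹ + 744 + …`). -/
noncomputable def J (τ : ℍ) : ℂ := E₄ τ ^ 3 / discriminant τ

theorem J_mul_discriminant (τ : ℍ) : J τ * discriminant τ = E₄ τ ^ 3 := by
  rw [J, div_mul_cancel₀ _ (discriminant_ne_zero τ)]

theorem J_sub_1728 (τ : ℍ) : J τ - 1728 = E₆ τ ^ 2 / discriminant τ := by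
  have h := discriminant_eq_E₄_cube_sub_E₆_sq τ
  have h0 := discriminant_ne_zero τ
  rw [J]
  field_simp
  rw [h]
  ring

theorem mdiff_discriminant : MDiff discriminant := by
  rw [← CuspForm.coe_discriminant]
  exact CuspFormClass.holo CuspForm.discriminant

theorem mdiff_J : MDiff J :=
  ((ModularFormClass.holo E₄).pow 3).div mdiff_discriminant discriminant_ne_zero

theorem E₄_slash (γ : SL(2, ℤ)) : (E₄ : ℍ → ℂ) ∣[(4 : ℤ)] γ = E₄ :=
  SlashInvariantFormClass.slash_action_eq E₄ (mapGL ℝ γ) ⟨γ, rfl⟩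

theorem E₆_slash (γ : SL(2, ℤ)) : (E₆ : ℍ → ℂ) ∣[(6 : ℤ)] γ = E₆ :=
  SlashInvariantFormClass.slash_action_eq E₆ (mapGL ℝ γ) ⟨γ, rfl⟩

theorem discriminant_slash (γ : SL(2, ℤ)) : discriminant ∣[(12 : ℤ)] γ = discriminant := by
  have := SlashInvariantFormClass.slash_action_eq CuspForm.discriminant (mapGL ℝ γ) ⟨γ, rfl⟩
  rwa [CuspForm.coe_discriminant] at this

theorem apply_smul_of_slash {F : ℍ → ℂ} {k : ℤ} (n : ℕ) (hk : k = n) {γ : SL(2, ℤ)}
    (h : F ∣[k] γ = F) (τ : ℍ) : F (γ • τ) = denom γ τ ^ n * F τ := by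
  subst hk
  have h' := congrFun h τ
  rw [SL_slash_apply] at h'
  have hd : denom γ τ ≠ 0 := denom_ne_zero γ τ
  rw [← h', zpow_neg, zpow_natCast]
  field_simp

theorem E₄_smul (γ : SL(2, ℤ)) (τ : ℍ) : E₄ (γ • τ) = denom γ τ ^ 4 * E₄ τ :=
  apply_smul_of_slash 4 rfl (E₄_slash γ) τ

theorem E₆_smul (γ : SL(2, ℤ)) (τ : ℍ) : E₆ (γ • τ) = denom γ τ ^ 6 * E₆ τ :=
  apply_smul_of_slash 6 rfl (E₆_slash γ) τ

theorem discriminant_smul (γ : SL(2, ℤ)) (τ : ℍ) :
    discriminant (γ • τ) = denom γ τ ^ 12 * discriminant τ :=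
  apply_smul_of_slash 12 rfl (discriminant_slash γ) τ

/-- `J` is invariant under `SL(2, ℤ)`. -/
theorem J_smul (γ : SL(2, ℤ)) (τ : ℍ) : J (γ • τ) = J τ := by
  have hd : denom γ τ ≠ 0 := denom_ne_zero γ τ
  have h0 := discriminant_ne_zero τ
  rw [J, J, E₄_smul, discriminant_smul]
  field_simp

theorem J_slash (γ : SL(2, ℤ)) : J ∣[(0 : ℤ)] γ = J := by
  funext τ
  rw [SL_slash_apply, J_smul]
  simp

/-! ### The derivative of `J` -/

/-- `D Δ = E₂ Δ` (the logarithmic derivative of `Δ` is `E₂`). -/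
theorem D_discriminant : D discriminant = E2 * discriminant := by
  funext τ
  have hτ : (τ : ℂ) ∈ upperHalfPlaneSet := τ.im_pos
  have h1 : (discriminant ∘ ofComplex) =ᶠ[𝓝 (τ : ℂ)] fun w : ℂ ↦ η w ^ 24 := by
    filter_upwards [isOpen_upperHalfPlaneSet.mem_nhds hτ] with w hw
    simp [comp_apply, ofComplex_apply_of_im_pos hw, discriminant]
  have hη : DifferentiableAt ℂ η (τ : ℂ) := differentiableAt_eta_of_mem_upperHalfPlaneSet hτ
  have h2 := logDeriv_eta_eq_E2 τ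
  rw [logDeriv_apply] at h2
  have hη0 : η (τ : ℂ) ≠ 0 := eta_ne_zero hτ
  have h3 : deriv η (τ : ℂ) = ↑π * I / 12 * E2 τ * η (τ : ℂ) := by
    field_simp at h2 ⊢
    linear_combination h2
  simp only [normalizedDerivOfComplex, Pi.mul_apply]
  rw [h1.deriv_eq]
  have h4 : deriv (fun w : ℂ ↦ η w ^ 24) (τ : ℂ) = 24 * η (τ : ℂ) ^ 23 * deriv η (τ : ℂ) := by
    show deriv (η ^ 24) (τ : ℂ) = _
    simpa using (hη.hasDerivAt.pow 24).deriv
  rw [h4, h3, discriminant]
  have hpi : (2 * (π : ℂ) * I) ≠ 0 := two_pi_I_ne_zero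
  field_simp
  ring

theorem E₆_ne_zero : (E₆ : ModularForm 𝒮ℒ 6) ≠ 0 := by
  intro h
  have h1 := Fermat.Agent.S20.H61.E₆_tendsto_one
  rw [h] at h1
  have h2 : Tendsto (fun _ : ℍ ↦ (0 : ℂ)) atImInfty (𝓝 1) := h1
  have := tendsto_nhds_unique tendsto_const_nhds h2
  exact zero_ne_one this

/-- The Serre derivative of `E₄` is a multiple of `E₆`. -/
theorem exists_serreDerivative_E₄ :
    ∃ a : ℂ, ∀ τ : ℍ, serreDerivative 4 E₄ τ = a * E₆ τ := by
  have hol : MDiff (serreDerivative 4 (E₄ : ℍ → ℂ)) :=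
    serreDerivative_mdifferentiable 4 (ModularFormClass.holo E₄)
  have inv : ∀ g : SL(2, ℤ), serreDerivative 4 (E₄ : ℍ → ℂ) ∣[(6 : ℤ)] g =
      serreDerivative 4 (E₄ : ℍ → ℂ) := by
    intro g
    have := serreDerivative_slash_invariant (k := 4) (ModularFormClass.holo E₄) (γ := g)
      (E₄_slash g)
    simpa using this
  have bdd : IsBoundedAtImInfty (serreDerivative 4 (E₄ : ℍ → ℂ)) :=
    Fermat.Agent.S20.H78.isBoundedAtImInfty_serreDerivative 4 (ModularFormClass.holo E₄)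
      (ModularFormClass.bdd_at_infty E₄)
  obtain ⟨r, hr⟩ := Fermat.Agent.S20.levelOne_of_invariant hol inv bdd
  have hrank : Module.finrank ℂ (ModularForm 𝒮ℒ 6) = 1 := by
    have := levelOne_weight_six_rank_one
    exact Module.finrank_eq_of_rank_eq this
  obtain ⟨a, ha⟩ := (finrank_eq_one_iff_of_nonzero' E₆ E₆_ne_zero).mp hrank r
  refine ⟨a, fun τ ↦ ?_⟩
  rw [← hr, ← ha]
  rfl

/-- `D J · Δ = 3 E₄² · ϑ E₄`. -/
theorem D_J_mul_discriminant_eq (τ : ℍ) :
    D J τ * discriminant τ = 3 * E₄ τ ^ 2 * serreDerivative 4 E₄ τ := by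
  have h1 : J * discriminant = (E₄ : ℍ → ℂ) ^ 3 := by
    funext z
    exact J_mul_discriminant z
  have h2 := congrArg D h1
  rw [normalizedDerivOfComplex_mul _ _ mdiff_J mdiff_discriminant,
    normalizedDerivOfComplex_pow _ _ (ModularFormClass.holo E₄), D_discriminant] at h2
  have h3 := congrFun h2 τ
  simp only [Pi.add_apply, Pi.mul_apply, Pi.pow_apply, Pi.natCast_apply] at h3
  have h4 := J_mul_discriminant τ
  rw [serreDerivative_apply]
  push_cast at h3 ⊢
  linear_combination h3 - E2 τ * h4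

/-! ### Surjectivity of `J` -/

/-- `J` takes every complex value. -/
theorem J_surjective : Function.Surjective J := by
  intro c
  by_contra hc
  simp only [not_exists] at hc
  set f : ℍ → ℂ := fun τ ↦ E₄ τ ^ 3 - c * discriminant τ with hf
  have hne : ∀ τ, f τ ≠ 0 := by
    intro τ h0
    refine hc τ ?_
    rw [J, div_eq_iff (discriminant_ne_zero τ)]
    exact sub_eq_zero.mp h0
  have hfd : MDiff f :=
    ((ModularFormClass.holo E₄).pow 3).sub (mdifferentiable_const.mul mdiff_discriminant)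
  have hol : MDiff (fun τ ↦ 1 / f τ) := mdifferentiable_const.div hfd hne
  have hfs : ∀ (g : SL(2, ℤ)) (τ : ℍ), f (g • τ) = denom g τ ^ 12 * f τ := by
    intro g τ
    simp only [hf, E₄_smul, discriminant_smul]
    ring
  have inv : ∀ g : SL(2, ℤ), (fun τ ↦ 1 / f τ) ∣[(-12 : ℤ)] g = fun τ ↦ 1 / f τ := by
    intro g
    funext τ
    have hd : denom g τ ≠ 0 := denom_ne_zero g τ
    rw [SL_slash_apply, hfs, neg_neg, show ((12 : ℤ)) = ((12 : ℕ) : ℤ) by norm_num, zpow_natCast]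
    field_simp
  have hlim : Tendsto f atImInfty (𝓝 1) := by
    have h1 := (Fermat.Agent.S20.H61.E₄_tendsto_one.pow 3).sub
      ((discriminant_isZeroAtImInfty : Tendsto discriminant atImInfty (𝓝 0)).const_mul c)
    simpa using h1
  have hlim' : Tendsto (fun τ ↦ 1 / f τ) atImInfty (𝓝 1) := by
    have := hlim.inv₀ one_ne_zero
    simpa using this
  have bdd : IsBoundedAtImInfty (fun τ ↦ 1 / f τ) := hlim'.isBigO_one ℝ
  obtain ⟨r, hr⟩ := Fermat.Agent.S20.levelOne_of_invariant hol inv bdd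
  have hr0 := ModularFormClass.levelOne_neg_weight_eq_zero (by norm_num : (-12 : ℤ) < 0) r
  have := congrFun (hr.symm.trans hr0) UpperHalfPlane.I
  simp only [Pi.zero_apply, one_div, inv_eq_zero] at this
  exact hne _ this

/-! ### Non-vanishing of the derivative and special values -/

theorem eq_of_D_eq_zero {F : ℍ → ℂ} (hF : MDiff F) (h : D F = 0) (z w : ℍ) : F z = F w := by
  have hd : Set.EqOn (deriv (F ∘ ofComplex)) 0 {z : ℂ | 0 < z.im} := by
    intro u hu
    have := congrFun h ⟨u, hu⟩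
    simp only [normalizedDerivOfComplex, Pi.zero_apply] at this
    rcases mul_eq_zero.mp this with h0 | h0
    · exact absurd (inv_eq_zero.mp h0) two_pi_I_ne_zero
    · simpa using h0
  have := isOpen_upperHalfPlaneSet.is_const_of_deriv_eq_zero
    (Convex.isPreconnected (convex_halfSpace_im_gt 0))
    (UpperHalfPlane.mdifferentiable_iff.mp hF) hd z.im_pos w.im_pos
  rw [comp_apply, comp_apply, ofComplex_apply, ofComplex_apply] at this
  exact this

/-- `D J · Δ = c · E₄² · E₆` with a nonzero constant `c`. -/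
theorem exists_D_J_mul_discriminant :
    ∃ c : ℂ, c ≠ 0 ∧ ∀ τ : ℍ, D J τ * discriminant τ = c * E₄ τ ^ 2 * E₆ τ := by
  obtain ⟨a, ha⟩ := exists_serreDerivative_E₄
  refine ⟨3 * a, ?_, fun τ ↦ by rw [D_J_mul_discriminant_eq, ha]; ring⟩
  intro h
  have ha0 : a = 0 := by simpa using h
  have hD : D J = 0 := by
    funext τ
    have := D_J_mul_discriminant_eq τ
    rw [ha, ha0] at this
    simpa [discriminant_ne_zero τ] using this
  obtain ⟨τ₁, h1⟩ := J_surjective 0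
  obtain ⟨τ₂, h2⟩ := J_surjective 1
  have := eq_of_D_eq_zero mdiff_J hD τ₁ τ₂
  rw [h1, h2] at this
  exact zero_ne_one this

theorem E₄_cube_eq (τ : ℍ) : E₄ τ ^ 3 = 1728 * discriminant τ + E₆ τ ^ 2 := by
  have h := discriminant_eq_E₄_cube_sub_E₆_sq τ
  rw [h]; ring

theorem J_eq_zero_iff {τ : ℍ} : J τ = 0 ↔ E₄ τ = 0 := by
  rw [J, div_eq_zero_iff]
  simp [discriminant_ne_zero τ]

theorem J_eq_1728_iff {τ : ℍ} : J τ = 1728 ↔ E₆ τ = 0 := by
  rw [← sub_eq_zero, J_sub_1728, div_eq_zero_iff]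
  simp [discriminant_ne_zero τ]

/-- `J` is unramified away from the fibres over `0` and `1728`. -/
theorem D_J_ne_zero {τ : ℍ} (h0 : J τ ≠ 0) (h1 : J τ ≠ 1728) : D J τ ≠ 0 := by
  obtain ⟨c, hc, h⟩ := exists_D_J_mul_discriminant
  intro hD
  have := h τ
  rw [hD, zero_mul] at this
  have h4 : E₄ τ ≠ 0 := fun h ↦ h0 (J_eq_zero_iff.mpr h)
  have h6 : E₆ τ ≠ 0 := fun h ↦ h1 (J_eq_1728_iff.mpr h)
  exact mul_ne_zero (mul_ne_zero hc (pow_ne_zero 2 h4)) h6 this.symm

theorem E₆_eq_zero_of_S_smul {τ : ℍ} (h : ModularGroup.S • τ = τ) : E₆ τ = 0 := by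
  have h1 := E₆_smul ModularGroup.S τ
  rw [h, ModularGroup.denom_S] at h1
  have h2 : ((ModularGroup.S • τ : ℍ) : ℂ) = (-(τ : ℂ))⁻¹ := by
    rw [modular_S_smul]
  rw [h] at h2
  have hτ : (τ : ℂ) ≠ 0 := ne_zero τ
  have h2' : (τ : ℂ) * (-(τ : ℂ)) = 1 := by
    calc (τ : ℂ) * (-(τ : ℂ)) = (-(τ : ℂ))⁻¹ * (-(τ : ℂ)) := by rw [← h2]
      _ = 1 := inv_mul_cancel₀ (neg_ne_zero.mpr hτ)
  have h3 : (τ : ℂ) ^ 2 = -1 := by linear_combination -h2'
  have h4 : (τ : ℂ) ^ 6 = -1 := by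
    rw [show (τ : ℂ) ^ 6 = ((τ : ℂ) ^ 2) ^ 3 by ring, h3]; norm_num
  rw [h4] at h1
  linear_combination h1 / 2

theorem J_eq_1728_of_S_smul {τ : ℍ} (h : ModularGroup.S • τ = τ) : J τ = 1728 :=
  J_eq_1728_iff.mpr (E₆_eq_zero_of_S_smul h)

/-- The matrix `S * T = [0, -1; 1, 1]` (of order `3` in `PSL(2, ℤ)`). -/
def STmat : SL(2, ℤ) := ⟨!![0, -1; 1, 1], by decide⟩

theorem ST_eq : ModularGroup.S * ModularGroup.T = STmat := by
  apply Subtype.ext
  simp only [ModularGroup.S, ModularGroup.T, STmat]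
  decide

theorem E₄_eq_zero_of_ST_smul {τ : ℍ} (h : (ModularGroup.S * ModularGroup.T) • τ = τ) :
    E₄ τ = 0 := by
  have h2 : (((ModularGroup.S * ModularGroup.T) • τ : ℍ) : ℂ) = (-((τ : ℂ) + 1))⁻¹ := by
    rw [mul_smul, modular_S_smul, modular_T_smul]
    simp [add_comm]
  rw [h] at h2
  rw [ST_eq] at h
  have h1 := E₄_smul STmat τ
  rw [h] at h1
  have hden : denom STmat τ = (τ : ℂ) + 1 := by
    rw [ModularGroup.denom_apply]
    simp [STmat]
  have hτ1 : (τ : ℂ) + 1 ≠ 0 := by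
    intro h0
    have := congrArg Complex.im h0
    simp at this
    exact τ.im_pos.ne' this
  have h2' : (τ : ℂ) * (-((τ : ℂ) + 1)) = 1 := by
    calc (τ : ℂ) * (-((τ : ℂ) + 1)) = (-((τ : ℂ) + 1))⁻¹ * (-((τ : ℂ) + 1)) := by rw [← h2]
      _ = 1 := inv_mul_cancel₀ (neg_ne_zero.mpr hτ1)
  have h3 : (τ : ℂ) ^ 2 + τ + 1 = 0 := by linear_combination -h2'
  rw [hden] at h1
  have h5 : ((τ : ℂ) + 1) ^ 4 = (τ : ℂ) ^ 2 := by
    linear_combination ((τ : ℂ) ^ 2 + 3 * τ + 1) * h3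
  rw [h5] at h1
  have h6 : (τ : ℂ) ^ 2 ≠ 1 := by
    intro h7
    have : (τ : ℂ) = -2 := by linear_combination h3 - h7
    have := congrArg Complex.im this
    simp at this
    exact τ.im_pos.ne' this
  have h7 : (1 - (τ : ℂ) ^ 2) * E₄ τ = 0 := by linear_combination h1
  rcases mul_eq_zero.mp h7 with h8 | h8
  · exact absurd (sub_eq_zero.mp h8).symm h6
  · exact h8

theorem J_eq_zero_of_ST_smul {τ : ℍ} (h : (ModularGroup.S * ModularGroup.T) • τ = τ) :
    J τ = 0 :=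
  J_eq_zero_iff.mpr (E₄_eq_zero_of_ST_smul h)

end Fermat.Agent.S24.H35
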