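import Mathlib
import Fermat.Agent.S24.H35.JFun

/-!
# Local orders of the modular invariant `J`

At every point `τ₀` of the upper half-plane, `J - J τ₀` vanishes to order exactly
`3` if `J τ₀ = 0`, `2` if `J τ₀ = 1728`, and `1` otherwise
(orders of `J ∘ ofComplex : ℂ → ℂ` in the sense of `analyticOrderAt`).
-/

open UpperHalfPlane hiding I
open Complex Filter Function
open scoped Real Topology Manifold MatrixGroups ModularForm
open ModularForm EisensteinSeries Derivative Matrix.SpecialLinearGroup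

set_option autoImplicit false

namespace Fermat.Agent.S24.H35

theorem analyticAt_comp_ofComplex {F : ℍ → ℂ} (hF : MDiff F) (τ : ℍ) :
    AnalyticAt ℂ (F ∘ ofComplex) (τ : ℂ) :=
  (UpperHalfPlane.mdifferentiable_iff.mp hF).analyticAt
    (isOpen_upperHalfPlaneSet.mem_nhds τ.im_pos)

theorem comp_ofComplex_coe (F : ℍ → ℂ) (τ : ℍ) : (F ∘ ofComplex) (τ : ℂ) = F τ := by
  simp

/-- A holomorphic function on `ℍ` vanishing near one point vanishes identically. -/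
theorem eq_zero_of_analyticOrderAt_eq_top {F : ℍ → ℂ} (hF : MDiff F) {τ₀ : ℍ}
    (h : analyticOrderAt (F ∘ ofComplex) (τ₀ : ℂ) = ⊤) (τ : ℍ) : F τ = 0 := by
  have h1 : AnalyticOnNhd ℂ (F ∘ ofComplex) {z : ℂ | 0 < z.im} :=
    (UpperHalfPlane.mdifferentiable_iff.mp hF).analyticOnNhd isOpen_upperHalfPlaneSet
  have h2 := h1.eqOn_zero_of_preconnected_of_eventuallyEq_zero
    (Convex.isPreconnected (convex_halfSpace_im_gt 0)) τ₀.im_pos (analyticOrderAt_eq_top.mp h)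
  have := h2 τ.im_pos
  simpa using this

theorem analyticOrderAt_E₄_ne_top (τ₀ : ℍ) :
    analyticOrderAt ((E₄ : ℍ → ℂ) ∘ ofComplex) (τ₀ : ℂ) ≠ ⊤ := by
  intro h
  have h0 := eq_zero_of_analyticOrderAt_eq_top (ModularFormClass.holo E₄) h
  have h1 := Fermat.Agent.S20.H61.E₄_tendsto_one
  have h2 : Tendsto (fun _ : ℍ ↦ (0 : ℂ)) atImInfty (𝓝 1) := h1.congr h0
  exact zero_ne_one (tendsto_nhds_unique tendsto_const_nhds h2)

theorem analyticOrderAt_E₆_ne_top (τ₀ : ℍ) :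
    analyticOrderAt ((E₆ : ℍ → ℂ) ∘ ofComplex) (τ₀ : ℂ) ≠ ⊤ := by
  intro h
  have h0 := eq_zero_of_analyticOrderAt_eq_top (ModularFormClass.holo E₆) h
  have h1 := Fermat.Agent.S20.H61.E₆_tendsto_one
  have h2 : Tendsto (fun _ : ℍ ↦ (0 : ℂ)) atImInfty (𝓝 1) := h1.congr h0
  exact zero_ne_one (tendsto_nhds_unique tendsto_const_nhds h2)

/-- The derivative of `J ∘ ofComplex` near a point of `ℍ`, in terms of `E₄`, `E₆`, `Δ`. -/
theorem exists_deriv_J_mul_discriminant :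
    ∃ c : ℂ, c ≠ 0 ∧ ∀ τ₀ : ℍ, (deriv (J ∘ ofComplex) * (discriminant ∘ ofComplex)) =ᶠ[𝓝 (τ₀ : ℂ)]
      fun w ↦ c * ((E₄ : ℍ → ℂ) ∘ ofComplex) w ^ 2 * ((E₆ : ℍ → ℂ) ∘ ofComplex) w := by
  obtain ⟨c, hc, h⟩ := exists_D_J_mul_discriminant
  refine ⟨2 * π * I * c, mul_ne_zero two_pi_I_ne_zero hc, fun τ₀ ↦ ?_⟩
  filter_upwards [isOpen_upperHalfPlaneSet.mem_nhds τ₀.im_pos] with w hw
  have h1 := h ⟨w, hw⟩
  simp only [normalizedDerivOfComplex] at h1
  simp only [Pi.mul_apply, comp_apply, ofComplex_apply_of_im_pos hw]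
  have hpi : (2 * (π : ℂ) * I) ≠ 0 := two_pi_I_ne_zero
  have h2 : deriv (J ∘ ofComplex) w * discriminant ⟨w, hw⟩ =
      2 * π * I * ((2 * π * I)⁻¹ * deriv (J ∘ ofComplex) w * discriminant ⟨w, hw⟩) := by
    field_simp
  rw [h2]
  have h3 : (2 * (π : ℂ) * I)⁻¹ * deriv (J ∘ ofComplex) w * discriminant ⟨w, hw⟩ =
      c * E₄ ⟨w, hw⟩ ^ 2 * E₆ ⟨w, hw⟩ := h1
  rw [h3]
  ring

/-- The order of `deriv (J ∘ ofComplex)` at a point of `ℍ`. -/
theorem analyticOrderAt_deriv_J (τ₀ : ℍ) :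
    analyticOrderAt (deriv (J ∘ ofComplex)) (τ₀ : ℂ) =
      2 • analyticOrderAt ((E₄ : ℍ → ℂ) ∘ ofComplex) (τ₀ : ℂ) +
        analyticOrderAt ((E₆ : ℍ → ℂ) ∘ ofComplex) (τ₀ : ℂ) := by
  obtain ⟨c, hc, h⟩ := exists_deriv_J_mul_discriminant
  have hj := analyticAt_comp_ofComplex mdiff_J τ₀
  have hδ := analyticAt_comp_ofComplex mdiff_discriminant τ₀
  have h4 := analyticAt_comp_ofComplex (ModularFormClass.holo E₄) τ₀
  have h6 := analyticAt_comp_ofComplex (ModularFormClass.holo E₆) τ₀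
  have hδ0 : analyticOrderAt (discriminant ∘ ofComplex) (τ₀ : ℂ) = 0 := by
    rw [hδ.analyticOrderAt_eq_zero]
    simpa using discriminant_ne_zero τ₀
  have hc0 : analyticOrderAt (fun _ : ℂ ↦ c) (τ₀ : ℂ) = 0 := by
    rw [analyticAt_const.analyticOrderAt_eq_zero]
    exact hc
  have e1 : analyticOrderAt (deriv (J ∘ ofComplex) * (discriminant ∘ ofComplex)) (τ₀ : ℂ) =
      analyticOrderAt (deriv (J ∘ ofComplex)) (τ₀ : ℂ) := by
    rw [analyticOrderAt_mul hj.deriv hδ, hδ0, add_zero]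
  have e2 : (fun w ↦ c * ((E₄ : ℍ → ℂ) ∘ ofComplex) w ^ 2 * ((E₆ : ℍ → ℂ) ∘ ofComplex) w) =
      ((fun _ : ℂ ↦ c) * ((E₄ : ℍ → ℂ) ∘ ofComplex) ^ 2) * ((E₆ : ℍ → ℂ) ∘ ofComplex) := by
    funext w
    simp
  rw [← e1, analyticOrderAt_congr (h τ₀), e2, analyticOrderAt_mul (analyticAt_const.mul (h4.pow 2)) h6,
    analyticOrderAt_mul analyticAt_const (h4.pow 2), analyticOrderAt_pow h4, hc0, zero_add]

/-- `J` vanishes to order exactly `3` at each of its zeros. -/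
theorem order_J_of_eq_zero {τ₀ : ℍ} (h : J τ₀ = 0) :
    analyticOrderAt (J ∘ ofComplex) (τ₀ : ℂ) = 3 := by
  have hj := analyticAt_comp_ofComplex mdiff_J τ₀
  have hδ := analyticAt_comp_ofComplex mdiff_discriminant τ₀
  have h4 := analyticAt_comp_ofComplex (ModularFormClass.holo E₄) τ₀
  have h6 := analyticAt_comp_ofComplex (ModularFormClass.holo E₆) τ₀
  have hδ0 : analyticOrderAt (discriminant ∘ ofComplex) (τ₀ : ℂ) = 0 := by
    rw [hδ.analyticOrderAt_eq_zero]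
    simpa using discriminant_ne_zero τ₀
  have h60 : analyticOrderAt ((E₆ : ℍ → ℂ) ∘ ofComplex) (τ₀ : ℂ) = 0 := by
    rw [h6.analyticOrderAt_eq_zero]
    have h40 : E₄ τ₀ = 0 := J_eq_zero_iff.mp h
    have := E₄_cube_eq τ₀
    rw [h40] at this
    intro h0
    simp only [comp_apply, ofComplex_apply] at h0
    rw [h0] at this
    have hd := discriminant_ne_zero τ₀
    apply hd
    linear_combination -this / 1728
  -- ord J = 3 ord E₄
  have e1 : (J ∘ ofComplex) * (discriminant ∘ ofComplex) = ((E₄ : ℍ → ℂ) ∘ ofComplex) ^ 3 := by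
    funext w
    simp only [Pi.mul_apply, comp_apply, Pi.pow_apply]
    exact J_mul_discriminant _
  have e2 : analyticOrderAt (J ∘ ofComplex) (τ₀ : ℂ) =
      3 • analyticOrderAt ((E₄ : ℍ → ℂ) ∘ ofComplex) (τ₀ : ℂ) := by
    rw [← analyticOrderAt_pow h4, ← e1, analyticOrderAt_mul hj hδ, hδ0, add_zero]
  have e3 := analyticOrderAt_deriv_J τ₀
  rw [h60, add_zero] at e3
  have e4 := hj.analyticOrderAt_deriv_add_one
  have e5 : (fun w ↦ (J ∘ ofComplex) w - (J ∘ ofComplex) (τ₀ : ℂ)) = J ∘ ofComplex := by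
    funext w
    simp [h]
  rw [e5, e3, e2] at e4
  have hm := analyticOrderAt_E₄_ne_top τ₀
  rw [e2]
  generalize analyticOrderAt ((E₄ : ℍ → ℂ) ∘ ofComplex) (τ₀ : ℂ) = m at e4 hm
  lift m to ℕ using hm
  rw [nsmul_eq_mul, nsmul_eq_mul] at e4
  have : 2 * m + 1 = 3 * m := by exact_mod_cast e4
  have hm1 : m = 1 := by omega
  subst hm1
  rfl

/-- `J - 1728` vanishes to order exactly `2` at each of its zeros. -/
theorem order_J_sub_of_eq_1728 {τ₀ : ℍ} (h : J τ₀ = 1728) :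
    analyticOrderAt (fun w ↦ (J ∘ ofComplex) w - 1728) (τ₀ : ℂ) = 2 := by
  have hj := analyticAt_comp_ofComplex mdiff_J τ₀
  have hδ := analyticAt_comp_ofComplex mdiff_discriminant τ₀
  have h4 := analyticAt_comp_ofComplex (ModularFormClass.holo E₄) τ₀
  have h6 := analyticAt_comp_ofComplex (ModularFormClass.holo E₆) τ₀
  have hj' : AnalyticAt ℂ (fun w ↦ (J ∘ ofComplex) w - 1728) (τ₀ : ℂ) := hj.sub analyticAt_const
  have hδ0 : analyticOrderAt (discriminant ∘ ofComplex) (τ₀ : ℂ) = 0 := by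
    rw [hδ.analyticOrderAt_eq_zero]
    simpa using discriminant_ne_zero τ₀
  have h40 : analyticOrderAt ((E₄ : ℍ → ℂ) ∘ ofComplex) (τ₀ : ℂ) = 0 := by
    rw [h4.analyticOrderAt_eq_zero]
    have h60 : E₆ τ₀ = 0 := J_eq_1728_iff.mp h
    have := E₄_cube_eq τ₀
    rw [h60] at this
    intro h0
    simp only [comp_apply, ofComplex_apply] at h0
    rw [h0] at this
    have hd := discriminant_ne_zero τ₀
    apply hd
    linear_combination -this / 1728
  -- ord (J - 1728) = 2 ord E₆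
  have e1 : (fun w ↦ (J ∘ ofComplex) w - 1728) * (discriminant ∘ ofComplex) =
      ((E₆ : ℍ → ℂ) ∘ ofComplex) ^ 2 := by
    funext w
    simp only [Pi.mul_apply, comp_apply, Pi.pow_apply]
    rw [J_sub_1728, div_mul_cancel₀ _ (discriminant_ne_zero _)]
  have e2 : analyticOrderAt (fun w ↦ (J ∘ ofComplex) w - 1728) (τ₀ : ℂ) =
      2 • analyticOrderAt ((E₆ : ℍ → ℂ) ∘ ofComplex) (τ₀ : ℂ) := by
    rw [← analyticOrderAt_pow h6, ← e1, analyticOrderAt_mul hj' hδ, hδ0, add_zero]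
  have e3 := analyticOrderAt_deriv_J τ₀
  rw [h40, smul_zero, zero_add] at e3
  have e4 := hj.analyticOrderAt_deriv_add_one
  have e5 : (fun w ↦ (J ∘ ofComplex) w - (J ∘ ofComplex) (τ₀ : ℂ)) =
      fun w ↦ (J ∘ ofComplex) w - 1728 := by
    funext w
    simp [h]
  rw [e5, e3, e2] at e4
  have hm := analyticOrderAt_E₆_ne_top τ₀
  rw [e2]
  generalize analyticOrderAt ((E₆ : ℍ → ℂ) ∘ ofComplex) (τ₀ : ℂ) = m at e4 hm
  lift m to ℕ using hm
  rw [nsmul_eq_mul] at e4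
  have : m + 1 = 2 * m := by exact_mod_cast e4
  have hm1 : m = 1 := by omega
  subst hm1
  rfl

/-- Away from the fibres over `0` and `1728`, `J - J τ₀` vanishes to order exactly `1`. -/
theorem order_J_sub_of_ne {τ₀ : ℍ} (h0 : J τ₀ ≠ 0) (h1 : J τ₀ ≠ 1728) :
    analyticOrderAt (fun w ↦ (J ∘ ofComplex) w - J τ₀) (τ₀ : ℂ) = 1 := by
  have hj := analyticAt_comp_ofComplex mdiff_J τ₀
  have hd : deriv (J ∘ ofComplex) (τ₀ : ℂ) ≠ 0 := by
    have := D_J_ne_zero h0 h1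
    simp only [normalizedDerivOfComplex] at this
    exact right_ne_zero_of_mul this
  have := hj.analyticOrderAt_sub_eq_one_of_deriv_ne_zero hd
  simpa using this

end Fermat.Agent.S24.H35
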