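import Mathlib
import Fermat.Agent.S24.ModDefs
import Fermat.Agent.S24.H35.JOrder

/-!
# AN-JCORE: final facts about `Fermat.Agent.S24.Jfun = E₄³ / Δ`

Everything is stated for `Fermat.Agent.S24.Jfun` of `ModDefs.lean`:
holomorphy, `SL(2, ℤ)`-invariance, `Jfun - 1728 = E₆² / Δ`, surjectivity, the simple pole
at `i∞` (`Jfun · q → 1`), moderate growth (`Δ · Jfun` bounded), and the exact local orders
of `Jfun - Jfun τ₀` (`3`, `2`, `1`).
-/

open UpperHalfPlane hiding I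
open Complex Filter Function
open scoped Real Topology Manifold MatrixGroups ModularForm
open ModularForm EisensteinSeries Derivative Matrix.SpecialLinearGroup

set_option autoImplicit false

namespace Fermat.Agent.S24.H35

theorem J_eq_Jfun : J = Jfun := rfl

theorem Jfun_apply (τ : ℍ) : Jfun τ = E₄ τ ^ 3 / discriminant τ := rfl

/-- `Jfun` is holomorphic on `ℍ`. -/
theorem mdiff_Jfun : MDiff Jfun := mdiff_J

/-- `Jfun` is `SL(2, ℤ)`-invariant. -/
theorem Jfun_smul (γ : SL(2, ℤ)) (τ : ℍ) : Jfun (γ • τ) = Jfun τ := J_smul γ τ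

theorem Jfun_mul_discriminant (τ : ℍ) : Jfun τ * discriminant τ = E₄ τ ^ 3 :=
  J_mul_discriminant τ

/-- `Jfun - 1728 = E₆² / Δ`. -/
theorem Jfun_sub_1728 (τ : ℍ) : Jfun τ - 1728 = E₆ τ ^ 2 / discriminant τ := J_sub_1728 τ

theorem Jfun_eq_zero_iff (τ : ℍ) : Jfun τ = 0 ↔ E₄ τ = 0 := J_eq_zero_iff (τ := τ)

theorem Jfun_eq_1728_iff (τ : ℍ) : Jfun τ = 1728 ↔ E₆ τ = 0 := J_eq_1728_iff (τ := τ)

/-- `Jfun : ℍ → ℂ` is surjective. -/
theorem Jfun_surjective : Function.Surjective Jfun := J_surjective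

/-- `Jfun` has a simple pole at `i∞` with leading coefficient `1`: `Jfun τ · q(τ) → 1`. -/
theorem tendsto_Jfun_mul_qParam :
    Tendsto (fun τ : ℍ => Jfun τ * Function.Periodic.qParam 1 τ) atImInfty (𝓝 1) := by
  have h1 : Tendsto (fun τ : ℍ => E₄ τ ^ 3) atImInfty (𝓝 1) := by
    simpa using Fermat.Agent.S20.H61.E₄_tendsto_one.pow 3
  have h2 := tendsto_atImInfty_tprod_one_sub_eta_q_pow
  have h3 : Tendsto (fun τ : ℍ => E₄ τ ^ 3 / ∏' n : ℕ, (1 - eta_q n τ) ^ 24) atImInfty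
      (𝓝 (1 / 1)) := h1.div h2 one_ne_zero
  rw [div_one] at h3
  refine h3.congr fun τ => ?_
  have hq : Function.Periodic.qParam 1 (τ : ℂ) ≠ 0 := by
    simp [Function.Periodic.qParam]
  have hΔ := discriminant_ne_zero τ
  have hP : (∏' n : ℕ, (1 - eta_q n τ) ^ 24) ≠ 0 := by
    intro h
    apply hΔ
    rw [discriminant_eq_q_prod, h, mul_zero]
  rw [Jfun_apply, discriminant_eq_q_prod]
  field_simp

/-- `Δ · Jfun = E₄³` is bounded at `i∞` (moderate growth of `Jfun`, pole order `≤ 1`). -/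
theorem isBoundedAtImInfty_discriminant_mul_Jfun :
    IsBoundedAtImInfty (fun τ : ℍ => discriminant τ ^ 1 * Jfun τ) := by
  have h1 : Tendsto (fun τ : ℍ => E₄ τ ^ 3) atImInfty (𝓝 1) := by
    simpa using Fermat.Agent.S20.H61.E₄_tendsto_one.pow 3
  have h2 : (fun τ : ℍ => discriminant τ ^ 1 * Jfun τ) = fun τ : ℍ => E₄ τ ^ 3 := by
    ext τ
    rw [pow_one, mul_comm, Jfun_mul_discriminant]
  rw [h2]
  exact h1.isBigO_one ℝ

/-- `‖Jfun τ‖ → ∞` as `Im τ → ∞`. -/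
theorem tendsto_norm_Jfun_atTop : Tendsto (fun τ : ℍ => ‖Jfun τ‖) atImInfty atTop := by
  have h1 : Tendsto (fun τ : ℍ => ‖Jfun τ * Function.Periodic.qParam 1 τ‖) atImInfty (𝓝 1) := by
    simpa using tendsto_Jfun_mul_qParam.norm
  have h2 : Tendsto (fun τ : ℍ => ‖Function.Periodic.qParam 1 (τ : ℂ)‖) atImInfty (𝓝[>] 0) := by
    rw [tendsto_nhdsWithin_iff]
    refine ⟨?_, Eventually.of_forall fun τ => ?_⟩
    · simpa using (qParam_tendsto_atImInfty zero_lt_one).norm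
    · simp [Function.Periodic.qParam]
  have h3 : Tendsto (fun τ : ℍ => ‖Function.Periodic.qParam 1 (τ : ℂ)‖⁻¹) atImInfty atTop :=
    tendsto_inv_nhdsGT_zero.comp h2
  have h4 := h3.atTop_mul_pos one_pos h1
  refine h4.congr fun τ => ?_
  have hq : ‖Function.Periodic.qParam 1 (τ : ℂ)‖ ≠ 0 := by
    simp [Function.Periodic.qParam]
  rw [norm_mul]
  field_simp

/-- `1 / Jfun → 0` at `i∞`. -/
theorem tendsto_inv_Jfun : Tendsto (fun τ : ℍ => (Jfun τ)⁻¹) atImInfty (𝓝 0) := by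
  have h := tendsto_inv_atTop_zero.comp tendsto_norm_Jfun_atTop
  rw [tendsto_zero_iff_norm_tendsto_zero]
  refine h.congr fun τ => ?_
  simp

/-- `Jfun` avoids any given value near `i∞`. -/
theorem eventually_Jfun_ne (c : ℂ) : ∀ᶠ τ : ℍ in atImInfty, Jfun τ ≠ c := by
  filter_upwards [tendsto_norm_Jfun_atTop.eventually_gt_atTop ‖c‖] with τ hτ h
  rw [h] at hτ
  exact lt_irrefl _ hτ

/-! ### Local orders -/

/-- If `Jfun τ₀ = 0` then `Jfun - Jfun τ₀` vanishes to order exactly `3` at `τ₀`. -/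
theorem analyticOrderAt_Jfun_sub_of_eq_zero {τ₀ : ℍ} (h : Jfun τ₀ = 0) :
    analyticOrderAt (fun z : ℂ => Jfun (ofComplex z) - Jfun τ₀) (τ₀ : ℂ) = 3 := by
  have h3 := order_J_of_eq_zero (τ₀ := τ₀) h
  have e : (fun z : ℂ => Jfun (ofComplex z) - Jfun τ₀) = J ∘ ofComplex := by
    ext z
    rw [h, sub_zero]
    rfl
  rw [e]
  exact h3

/-- If `Jfun τ₀ = 1728` then `Jfun - Jfun τ₀` vanishes to order exactly `2` at `τ₀`. -/
theorem analyticOrderAt_Jfun_sub_of_eq_1728 {τ₀ : ℍ} (h : Jfun τ₀ = 1728) :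
    analyticOrderAt (fun z : ℂ => Jfun (ofComplex z) - Jfun τ₀) (τ₀ : ℂ) = 2 := by
  have h2 := order_J_sub_of_eq_1728 (τ₀ := τ₀) h
  have e : (fun z : ℂ => Jfun (ofComplex z) - Jfun τ₀) =
      fun w : ℂ => (J ∘ ofComplex) w - 1728 := by
    ext z
    rw [h]
    rfl
  rw [e]
  exact h2

/-- If `Jfun τ₀ ∉ {0, 1728}` then `Jfun - Jfun τ₀` has a simple zero at `τ₀`. -/
theorem analyticOrderAt_Jfun_sub_of_ne {τ₀ : ℍ} (h0 : Jfun τ₀ ≠ 0) (h1 : Jfun τ₀ ≠ 1728) :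
    analyticOrderAt (fun z : ℂ => Jfun (ofComplex z) - Jfun τ₀) (τ₀ : ℂ) = 1 :=
  order_J_sub_of_ne (τ₀ := τ₀) h0 h1

/-- The local order of `Jfun - Jfun τ₀` at `τ₀`, in one statement. -/
theorem analyticOrderAt_Jfun_sub (τ₀ : ℍ) :
    analyticOrderAt (fun z : ℂ => Jfun (ofComplex z) - Jfun τ₀) (τ₀ : ℂ) =
      if Jfun τ₀ = 0 then 3 else if Jfun τ₀ = 1728 then 2 else 1 := by
  split_ifs with h0 h1
  · exact analyticOrderAt_Jfun_sub_of_eq_zero h0
  · exact analyticOrderAt_Jfun_sub_of_eq_1728 h1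
  · exact analyticOrderAt_Jfun_sub_of_ne h0 h1

/-- `S` fixes only points with `Jfun = 1728`. -/
theorem Jfun_eq_1728_of_S_smul {τ : ℍ} (h : ModularGroup.S • τ = τ) : Jfun τ = 1728 :=
  J_eq_1728_of_S_smul h

/-- `S * T` fixes only points with `Jfun = 0`. -/
theorem Jfun_eq_zero_of_ST_smul {τ : ℍ} (h : (ModularGroup.S * ModularGroup.T) • τ = τ) :
    Jfun τ = 0 :=
  J_eq_zero_of_ST_smul h

end Fermat.Agent.S24.H35
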